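/-
P-MW (S17) row 682 MW-CB (helper58): the CAUCHY–BINET formula and compound matrices.

* `cb_det_mul`      : `det (A B) = ∑_u det A_u · det B_u` for `A : l × n`, `B : n × l`;
* `cauchyBinet`     : `Fermat.Agent.H92.MW.CauchyBinetStatement`;
* `compound l A`    : the `l`-th compound matrix (all `l × l` minors, rows and columns in
                      increasing order), `compound_mul`, `compound_one`;
* `compound_mul_eq_one`, `compound_mulVec_injective_of_leftInv`, `compound_mulVec_injective`:
  a matrix with a left inverse (over a field: an injective matrix) has a compound matrix with a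
  left inverse (resp. injective).
-/
import Fermat.Agent.H92.MW.CoreInterfaces

set_option autoImplicit false

open Matrix Finset Equiv

namespace Fermat.Agent.H58.MW

variable {K : Type*} [CommRing K]

/-- Expansion of the determinant of a product of rectangular matrices over all functions. -/
theorem cb_det_mul_expand {l n : ℕ} (A : Matrix (Fin l) (Fin n) K) (B : Matrix (Fin n) (Fin l) K) :
    (A * B).det = ∑ f : Fin l → Fin n, (A.submatrix id f).det * ∏ i, B (f i) i := by
  calc (A * B).det
      = ∑ f : Fin l → Fin n, ∑ σ : Perm (Fin l),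
          (Perm.sign σ : K) * ∏ i, A (σ i) (f i) * B (f i) i := by
        simp only [det_apply', mul_apply, prod_univ_sum, mul_sum, Fintype.piFinset_univ]
        rw [Finset.sum_comm]
    _ = ∑ f : Fin l → Fin n, (A.submatrix id f).det * ∏ i, B (f i) i := by
        refine Finset.sum_congr rfl fun f _ => ?_
        rw [det_apply', Finset.sum_mul]
        refine Finset.sum_congr rfl fun σ _ => ?_
        rw [Finset.prod_mul_distrib, mul_assoc]
        rfl

/-- A matrix with two equal columns (given by a non-injective column selection) has zero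
determinant. -/
theorem cb_det_submatrix_eq_zero {l n : ℕ} (A : Matrix (Fin l) (Fin n) K) (f : Fin l → Fin n)
    (hf : ¬ Function.Injective f) : (A.submatrix id f).det = 0 := by
  rw [Function.Injective] at hf
  push Not at hf
  obtain ⟨i, j, hij, hne⟩ := hf
  exact det_zero_of_column_eq hne fun k => by simp [submatrix_apply, hij]

/-- The parametrisation of injective maps `Fin l → Fin n` by an `l`-subset and a permutation. -/
def cbParam {l n : ℕ} (x : {u : Finset (Fin n) // u.card = l} × Perm (Fin l)) : Fin l → Fin n :=
  fun i => x.1.1.orderEmbOfFin x.1.2 (x.2 i)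

theorem cbParam_injective_apply {l n : ℕ}
    (x : {u : Finset (Fin n) // u.card = l} × Perm (Fin l)) :
    Function.Injective (cbParam x) := fun _ _ h =>
  x.2.injective ((x.1.1.orderEmbOfFin x.1.2).injective h)

theorem cbParam_range {l n : ℕ} (x : {u : Finset (Fin n) // u.card = l} × Perm (Fin l)) :
    Set.range (cbParam x) = (x.1.1 : Set (Fin n)) := by
  rw [← Finset.range_orderEmbOfFin x.1.1 x.1.2]
  ext y
  constructor
  · rintro ⟨i, rfl⟩
    exact ⟨x.2 i, rfl⟩
  · rintro ⟨j, rfl⟩
    exact ⟨x.2.symm j, by simp [cbParam]⟩

theorem cbParam_injective {l n : ℕ} :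
    Function.Injective (cbParam (l := l) (n := n)) := by
  rintro ⟨u, π⟩ ⟨u', π'⟩ h
  have hu : u = u' := by
    apply Subtype.ext
    have h1 := cbParam_range (u, π)
    have h2 := cbParam_range (u', π')
    rw [h] at h1
    exact Finset.coe_injective (h1.symm.trans h2)
  subst hu
  have hπ : π = π' := by
    ext i
    have := congrFun h i
    exact congrArg Fin.val ((u.1.orderEmbOfFin u.2).injective this)
  rw [hπ]

theorem cbParam_surjective {l n : ℕ} (f : Fin l → Fin n) (hf : Function.Injective f) :
    ∃ x : {u : Finset (Fin n) // u.card = l} × Perm (Fin l), cbParam x = f := by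
  classical
  have hcard : (Finset.univ.image f).card = l := by
    rw [Finset.card_image_of_injective _ hf, Finset.card_univ, Fintype.card_fin]
  let u : {u : Finset (Fin n) // u.card = l} := ⟨Finset.univ.image f, hcard⟩
  have hmem : ∀ i, ∃ j, u.1.orderEmbOfFin u.2 j = f i := fun i => by
    have h1 : f i ∈ (u.1 : Set (Fin n)) := by
      simp [u]
    rw [← Finset.range_orderEmbOfFin u.1 u.2] at h1
    exact h1
  choose g hg using hmem
  have hginj : Function.Injective g := fun i j h => hf (by rw [← hg i, ← hg j, h])
  have hgbij : Function.Bijective g := Finite.injective_iff_bijective.1 hginj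
  refine ⟨(u, Equiv.ofBijective g hgbij), ?_⟩
  funext i
  exact hg i

/-- **Cauchy–Binet**, square form: `det (A B) = ∑_u det A_u det B_u`. -/
theorem cb_det_mul {l n : ℕ} (A : Matrix (Fin l) (Fin n) K) (B : Matrix (Fin n) (Fin l) K) :
    (A * B).det = ∑ u : {u : Finset (Fin n) // u.card = l},
      (A.submatrix id (u.1.orderEmbOfFin u.2)).det *
        (B.submatrix (u.1.orderEmbOfFin u.2) id).det := by
  classical
  rw [cb_det_mul_expand]
  -- restrict to injective maps
  have h1 : ∑ f : Fin l → Fin n, (A.submatrix id f).det * ∏ i, B (f i) i =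
      ∑ f ∈ Finset.univ.filter (fun f : Fin l → Fin n => Function.Injective f),
        (A.submatrix id f).det * ∏ i, B (f i) i := by
    refine (Finset.sum_subset (Finset.filter_subset _ _) fun f _ hf => ?_).symm
    have hf' : ¬ Function.Injective f := by simpa using hf
    rw [cb_det_submatrix_eq_zero A f hf', zero_mul]
  rw [h1]
  -- reparametrise
  have h2 : ∑ f ∈ Finset.univ.filter (fun f : Fin l → Fin n => Function.Injective f),
        (A.submatrix id f).det * ∏ i, B (f i) i =
      ∑ x : {u : Finset (Fin n) // u.card = l} × Perm (Fin l),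
        (A.submatrix id (cbParam x)).det * ∏ i, B (cbParam x i) i := by
    symm
    refine Finset.sum_bij (fun x _ => cbParam x) (fun x _ => ?_) (fun x _ y _ h => ?_)
      (fun f hf => ?_) (fun x _ => rfl)
    · simpa using cbParam_injective_apply x
    · exact cbParam_injective h
    · obtain ⟨x, hx⟩ := cbParam_surjective f (by simpa using hf)
      exact ⟨x, Finset.mem_univ _, hx⟩
  rw [h2, Fintype.sum_prod_type]
  refine Finset.sum_congr rfl fun u _ => ?_
  rw [det_apply' (B.submatrix (u.1.orderEmbOfFin u.2) id), Finset.mul_sum]
  refine Finset.sum_congr rfl fun π _ => ?_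
  have h3 : A.submatrix id (cbParam (u, π)) =
      (A.submatrix id (u.1.orderEmbOfFin u.2)).submatrix id π := by
    ext i j
    rfl
  rw [h3, det_permute']
  have h4 : ∏ i, B (cbParam (u, π) i) i = ∏ i, B.submatrix (u.1.orderEmbOfFin u.2) id (π i) i :=
    rfl
  rw [h4]
  ring

/-- **[MW-CB] Cauchy–Binet** for maximal minors, in the shape of the P-MW interface. -/
theorem cauchyBinet : Fermat.Agent.H92.MW.CauchyBinetStatement := by
  intro K _ l n n' A B s
  have h1 : (A * B).submatrix id (s.1.orderEmbOfFin s.2) =
      A * B.submatrix id (s.1.orderEmbOfFin s.2) := by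
    ext i j
    simp [Matrix.mul_apply]
  rw [Fermat.Agent.H92.MW.minorVec, h1, cb_det_mul]
  rfl

/-! ### Compound matrices -/

/-- The `l`-th compound matrix of `A`: the matrix of all `l × l` minors. -/
noncomputable def compound {m n : ℕ} (l : ℕ) (A : Matrix (Fin m) (Fin n) K) :
    Matrix {s : Finset (Fin m) // s.card = l} {u : Finset (Fin n) // u.card = l} K :=
  fun s u => (A.submatrix (s.1.orderEmbOfFin s.2) (u.1.orderEmbOfFin u.2)).det

theorem compound_apply {m n : ℕ} (l : ℕ) (A : Matrix (Fin m) (Fin n) K)
    (s : {s : Finset (Fin m) // s.card = l}) (u : {u : Finset (Fin n) // u.card = l}) :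
    compound l A s u = (A.submatrix (s.1.orderEmbOfFin s.2) (u.1.orderEmbOfFin u.2)).det := rfl

/-- Cauchy–Binet: the compound matrix is multiplicative. -/
theorem compound_mul {m n p : ℕ} (l : ℕ) (A : Matrix (Fin m) (Fin n) K)
    (B : Matrix (Fin n) (Fin p) K) :
    compound l (A * B) = compound l A * compound l B := by
  ext s t
  rw [Matrix.mul_apply, compound_apply]
  have h1 : (A * B).submatrix (s.1.orderEmbOfFin s.2) (t.1.orderEmbOfFin t.2) =
      A.submatrix (s.1.orderEmbOfFin s.2) id * B.submatrix id (t.1.orderEmbOfFin t.2) := by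
    ext i j
    simp [Matrix.mul_apply]
  rw [h1, cb_det_mul]
  rfl

/-- The compound matrix of the identity is the identity. -/
theorem compound_one {n : ℕ} (l : ℕ) :
    compound l (1 : Matrix (Fin n) (Fin n) K) = 1 := by
  classical
  ext s t
  rw [compound_apply]
  by_cases hst : s = t
  · subst hst
    rw [Matrix.one_apply_eq, Matrix.submatrix_one _ (s.1.orderEmbOfFin s.2).injective,
      Matrix.det_one]
  · rw [Matrix.one_apply_ne hst]
    -- some element of `s` is not in `t`
    have hex : ∃ i, s.1.orderEmbOfFin s.2 i ∉ t.1 := by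
      by_contra hcon
      push Not at hcon
      apply hst
      apply Subtype.ext
      apply Finset.eq_of_subset_of_card_le
      · intro x hx
        have hx' : x ∈ (s.1 : Set (Fin n)) := hx
        rw [← Finset.range_orderEmbOfFin s.1 s.2] at hx'
        obtain ⟨i, rfl⟩ := hx'
        exact hcon i
      · rw [s.2, t.2]
    obtain ⟨i, hi⟩ := hex
    refine Matrix.det_eq_zero_of_row_eq_zero i fun j => ?_
    rw [Matrix.submatrix_apply, Matrix.one_apply_ne]
    intro h
    exact hi (h ▸ Finset.orderEmbOfFin_mem t.1 t.2 j)

/-- A left inverse of `A` gives a left inverse of the compound matrix. -/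
theorem compound_mul_eq_one {m n : ℕ} (l : ℕ) (N : Matrix (Fin n) (Fin m) K)
    (A : Matrix (Fin m) (Fin n) K) (h : N * A = 1) :
    compound l N * compound l A = 1 := by
  rw [← compound_mul, h, compound_one]

/-- The compound matrix of a matrix with a left inverse is injective. -/
theorem compound_mulVec_injective_of_leftInv {m n : ℕ} (l : ℕ) (N : Matrix (Fin n) (Fin m) K)
    (A : Matrix (Fin m) (Fin n) K) (h : N * A = 1) :
    Function.Injective (compound l A).mulVec := by
  intro x y hxy
  have h1 := congrArg (compound l N).mulVec hxy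
  rwa [Matrix.mulVec_mulVec, Matrix.mulVec_mulVec, compound_mul_eq_one l N A h,
    Matrix.one_mulVec, Matrix.one_mulVec] at h1

/-- Over a field: the compound matrix of an injective matrix is injective. -/
theorem compound_mulVec_injective {F : Type*} [Field F] {m n : ℕ} (l : ℕ)
    (A : Matrix (Fin m) (Fin n) F) (hA : Function.Injective A.mulVec) :
    Function.Injective (compound l A).mulVec := by
  have hker : LinearMap.ker (Matrix.toLin' A) = ⊥ := by
    rw [LinearMap.ker_eq_bot]
    intro x y h
    exact hA (by simpa [Matrix.toLin'_apply] using h)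
  obtain ⟨g, hg⟩ := LinearMap.exists_leftInverse_of_injective (Matrix.toLin' A) hker
  refine compound_mulVec_injective_of_leftInv l (LinearMap.toMatrix' g) A ?_
  have h1 : Matrix.toLin' (LinearMap.toMatrix' g * A) = LinearMap.id := by
    rw [Matrix.toLin'_mul, Matrix.toLin'_toMatrix', hg]
  have h2 := congrArg LinearMap.toMatrix' h1
  rwa [LinearMap.toMatrix'_toLin', LinearMap.toMatrix'_id] at h2

end Fermat.Agent.H58.MW
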